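/-
Generic function-field block in any characteristic (helper12), part 1: port of
`S24lib/FFPrimes.lean` with `CharZero K` replaced by separability of `F / K(x)`.

Dictionary between the places `v` of `F/K` at which `x` is regular and the nonzero primes of the
integral closure `S` of `K[x]` in `F`.
-/
import Mathlib
import Fermat.Agent.S24lib.FFPlaceVal

set_option autoImplicit false
set_option linter.deprecated false

noncomputable section

namespace Fermat.Agent.FFlib

open Fermat.Agent.S24lib

open AlgebraicCurve IsLocalRing WithZero IntermediateField Polynomial IsDedekindDomain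
open scoped IntermediateField.algebraAdjoinAdjoin

/-- The polynomial ring `K[x] ⊆ F`. -/
abbrev fsA (K : Type*) {F : Type*} [Field K] [Field F] [Algebra K F] (x : F) : Subalgebra K F :=
  Algebra.adjoin K {x}

/-- The integral closure of `K[x]` in `F`. -/
abbrev fsS (K : Type*) {F : Type*} [Field K] [Field F] [Algebra K F] (x : F) :
    Subalgebra (fsA K x) F :=
  integralClosure (fsA K x) F

variable {K F : Type*} [Field K] [Field F] [Algebra K F] {x : F}

theorem fsA_isPrincipalIdealRing (hx : Transcendental K x) : IsPrincipalIdealRing (fsA K x) :=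
  IsPrincipalIdealRing.of_surjective
    (Polynomial.algEquivOfTranscendental K x hx).toRingEquiv.toRingHom
    (Polynomial.algEquivOfTranscendental K x hx).surjective

/-- The hypotheses of the generic block, bundled: `x` is transcendental and `F/K(x)` is finite
and separable (any characteristic). -/
class FFSep (K : Type*) {F : Type*} [Field K] [Field F] [Algebra K F] (x : F) : Prop where
  trans : Transcendental K x
  fin : FiniteDimensional K⟮x⟯ F
  sep : Algebra.IsSeparable K⟮x⟯ F

namespace FFSep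

variable [h : FFSep K x]

instance (priority := 100) instFin : FiniteDimensional K⟮x⟯ F := h.fin

instance (priority := 100) instPIR : IsPrincipalIdealRing (fsA K x) :=
  fsA_isPrincipalIdealRing h.trans

instance (priority := 100) instSep : Algebra.IsSeparable K⟮x⟯ F := h.sep

instance (priority := 100) instDedekindS : IsDedekindDomain (fsS K x) :=
  IsIntegralClosure.isDedekindDomain (fsA K x) K⟮x⟯ F (fsS K x)

instance (priority := 100) instFracS : IsFractionRing (fsS K x) F :=
  integralClosure.isFractionRing_of_finite_extension K⟮x⟯ F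

instance (priority := 100) instFiniteS : Module.Finite (fsA K x) (fsS K x) :=
  IsIntegralClosure.finite (fsA K x) K⟮x⟯ F (fsS K x)

instance (priority := 100) instAlg : Algebra.IsAlgebraic K⟮x⟯ F :=
  Algebra.IsAlgebraic.of_finite _ _

end FFSep

section Dict

variable [h : FFSep K x]

omit h in
lemma fsConst_mem_S (a : K) : algebraMap K F a ∈ fsS K x :=
  Subalgebra.algebraMap_mem (fsS K x) (⟨algebraMap K F a, Subalgebra.algebraMap_mem _ a⟩ : fsA K x)

omit h in
lemma fsx_mem_S : x ∈ fsS K x :=
  Subalgebra.algebraMap_mem (fsS K x) (⟨x, Algebra.self_mem_adjoin_singleton K x⟩ : fsA K x)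

/-- The place attached to a nonzero prime of `S`. -/
def fsPlaceOfPrime (P : HeightOneSpectrum (fsS K x)) : Place K F :=
  ffPlaceOfVal (P.valuation F)
    (fun a => P.valuation_le_one (K := F) (⟨algebraMap K F a, fsConst_mem_S a⟩ : fsS K x))
    (by
      obtain ⟨π, hπ⟩ := P.valuation_exists_uniformizer F
      refine ⟨π⁻¹, ?_⟩
      rw [map_inv₀, hπ, ← exp_neg, neg_neg, ← exp_zero, exp_lt_exp]
      norm_num)

lemma fsPlaceOfPrime_toValuationSubring (P : HeightOneSpectrum (fsS K x)) :
    (fsPlaceOfPrime P).toValuationSubring = (P.valuation F).valuationSubring := rfl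

theorem fsOrd_placeOfPrime (P : HeightOneSpectrum (fsS K x)) (f : F) :
    (fsPlaceOfPrime P).ord f = -log (P.valuation F f) :=
  ffOrd_eq_neg_log _ _ (fsPlaceOfPrime_toValuationSubring P) (P.valuation_exists_uniformizer F) f

omit h in
/-- `K[x] ⊆ O_v` when `x` is regular at `v`. -/
lemma fsA_le (v : Place K F) (hxv : 0 ≤ v.ord x) :
    ∀ a ∈ fsA K x, a ∈ v.toValuationSubring := by
  intro a ha
  induction ha using Algebra.adjoin_induction with
  | mem y hy =>
    rw [Set.mem_singleton_iff] at hy
    rw [hy]; exact ffMem_of_ord_nonneg v hxv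
  | algebraMap r => exact v.algebraMap_mem' r
  | add y z _ _ hy hz => exact add_mem hy hz
  | mul y z _ _ hy hz => exact mul_mem hy hz

omit h in
/-- `S ⊆ O_v` when `x` is regular at `v`. -/
lemma fsS_le (v : Place K F) (hxv : 0 ≤ v.ord x) :
    ∀ s ∈ fsS K x, s ∈ v.toValuationSubring := by
  intro s hs
  obtain ⟨p, hpm, hp⟩ : IsIntegral (fsA K x) s := hs
  let φ : fsA K x →+* v.toValuationSubring :=
    (algebraMap (fsA K x) F).codRestrict v.toValuationSubring.toSubring
      (fun y => fsA_le v hxv y.1 y.2)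
  have hφ : (algebraMap v.toValuationSubring F).comp φ = algebraMap (fsA K x) F := by
    ext y; rfl
  have hint' : IsIntegral v.toValuationSubring s := by
    refine ⟨p.map φ, hpm.map φ, ?_⟩
    rw [eval₂_map, hφ]
    exact hp
  obtain ⟨y, hy⟩ := IsIntegrallyClosed.algebraMap_eq_of_integral hint'
  rw [← hy]
  exact y.2

/-- The inclusion `S → O_v`. -/
def fsIncl (v : Place K F) (hxv : 0 ≤ v.ord x) : fsS K x →+* v.toValuationSubring :=
  (algebraMap (fsS K x) F).codRestrict v.toValuationSubring.toSubring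
    (fun s => fsS_le v hxv s.1 s.2)

omit h in
@[simp] lemma ffIncl_coe (v : Place K F) (hxv : 0 ≤ v.ord x) (s : fsS K x) :
    ((fsIncl v hxv s : v.toValuationSubring) : F) = (s : F) := rfl

omit h in
lemma fsMem_comap_iff (v : Place K F) (hxv : 0 ≤ v.ord x) (s : fsS K x) :
    s ∈ Ideal.comap (fsIncl v hxv) (maximalIdeal v.toValuationSubring) ↔
      s = 0 ∨ 0 < v.ord (s : F) := by
  rw [Ideal.mem_comap]
  constructor
  · intro hs
    by_cases h0 : s = 0
    · exact Or.inl h0
    right
    have hne : fsIncl v hxv s ≠ 0 := by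
      intro hz
      apply h0
      have h1 : ((fsIncl v hxv s : v.toValuationSubring) : F) = 0 := by rw [hz]; rfl
      rw [ffIncl_coe] at h1
      exact Subtype.ext h1
    have h2 := ffOrd_pos_of_mem_maximalIdeal v hs hne
    rwa [ffIncl_coe] at h2
  · rintro (rfl | hs)
    · rw [map_zero]; exact Ideal.zero_mem _
    · obtain ⟨a, ha, hae⟩ := ffMem_maximalIdeal_of_ord_pos v hs
      have : a = fsIncl v hxv s := Subtype.ext (by rw [hae, ffIncl_coe])
      rwa [← this]

/-- The prime of `S` attached to a place at which `x` is regular. -/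
def fsPrimeOfPlace (v : Place K F) (hxv : 0 ≤ v.ord x) : HeightOneSpectrum (fsS K x) where
  asIdeal := Ideal.comap (fsIncl v hxv) (maximalIdeal v.toValuationSubring)
  isPrime := Ideal.comap_isPrime _ _
  ne_bot := by
    intro hbot
    apply v.ne_top'
    refine SetLike.ext fun f => ⟨fun _ => ValuationSubring.mem_top f, fun _ => ?_⟩
    obtain ⟨a, b, hb, rfl⟩ := IsFractionRing.div_surjective (A := fsS K x) f
    have hb0 : b ≠ 0 := nonZeroDivisors.ne_zero hb
    have hord : ∀ s : fsS K x, s ≠ 0 → v.ord (s : F) = 0 := by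
      intro s hs
      have h1 : 0 ≤ v.ord (s : F) := ffOrd_nonneg_of_mem v (fsS_le v hxv s.1 s.2)
      have h2 : ¬ (0 < v.ord (s : F)) := by
        intro hpos
        have : s ∈ Ideal.comap (fsIncl v hxv) (maximalIdeal v.toValuationSubring) :=
          (fsMem_comap_iff v hxv s).2 (Or.inr hpos)
        rw [hbot] at this
        exact hs (by simpa using this)
      omega
    by_cases ha0 : a = 0
    · simp [ha0]
    apply ffMem_of_ord_nonneg
    have haF : ((a : fsS K x) : F) ≠ 0 := by simpa using ha0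
    have hbF : ((b : fsS K x) : F) ≠ 0 := by simpa using hb0
    show 0 ≤ v.ord ((a : F) / (b : F))
    rw [ffOrd_div v haF hbF, hord a ha0, hord b hb0, sub_zero]

omit h in
lemma fsMem_primeOfPlace_iff [FFSep K x] (v : Place K F) (hxv : 0 ≤ v.ord x) (s : fsS K x) :
    s ∈ (fsPrimeOfPlace v hxv).asIdeal ↔ s = 0 ∨ 0 < v.ord (s : F) :=
  fsMem_comap_iff v hxv s

/-- `x` is regular at the place attached to a prime of `S`. -/
lemma fsOrd_x_placeOfPrime_nonneg (P : HeightOneSpectrum (fsS K x)) :
    0 ≤ (fsPlaceOfPrime P).ord x := by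
  apply ffOrd_nonneg_of_mem
  rw [fsPlaceOfPrime_toValuationSubring, Valuation.mem_valuationSubring_iff]
  exact P.valuation_le_one (K := F) (⟨x, fsx_mem_S⟩ : fsS K x)

/-- Orders at `v` are computed by the valuation of the attached prime. -/
theorem fsPlaceOfPrime_primeOfPlace (v : Place K F) (hxv : 0 ≤ v.ord x) :
    fsPlaceOfPrime (fsPrimeOfPlace v hxv) = v := by
  set P := fsPrimeOfPlace v hxv with hP
  -- orders of elements of S outside / inside P
  have hout : ∀ d : fsS K x, d ∉ P.asIdeal → v.ord (d : F) = 0 := by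
    intro d hd
    have h1 : 0 ≤ v.ord (d : F) := ffOrd_nonneg_of_mem v (fsS_le v hxv d.1 d.2)
    have h2 : ¬ (0 < v.ord (d : F)) := fun hpos =>
      hd ((fsMem_primeOfPlace_iff v hxv d).2 (Or.inr hpos))
    omega
  -- val_P ≤ 1 implies membership in O_v
  have hle : ∀ f : F, P.valuation F f ≤ 1 → f ∈ v.toValuationSubring := by
    intro f hf
    obtain ⟨n, d, hnd⟩ := P.exists_primeCompl_mul_eq_of_integer f hf
    have hd0 : ((d : fsS K x) : F) ≠ 0 := by
      have : (d : fsS K x) ≠ 0 := by
        intro h0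
        exact d.2 (by rw [h0]; exact zero_mem _)
      simpa using this
    have hf' : f = (n : F) / ((d : fsS K x) : F) := by
      rw [eq_div_iff hd0]; exact hnd
    rw [hf']
    by_cases hn0 : (n : F) = 0
    · simp [hn0]
    apply ffMem_of_ord_nonneg
    rw [ffOrd_div v hn0 hd0, hout d d.2, sub_zero]
    exact ffOrd_nonneg_of_mem v (fsS_le v hxv n.1 n.2)
  -- val_P < 1 implies positive order at v
  have hlt : ∀ f : F, f ≠ 0 → P.valuation F f < 1 → 0 < v.ord f := by
    intro f hf0 hf
    obtain ⟨n, d, hnd⟩ := P.exists_primeCompl_mul_eq_of_integer f hf.le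
    have hd0 : ((d : fsS K x) : F) ≠ 0 := by
      have : (d : fsS K x) ≠ 0 := by
        intro h0
        exact d.2 (by rw [h0]; exact zero_mem _)
      simpa using this
    have hf' : f = (n : F) / ((d : fsS K x) : F) := by
      rw [eq_div_iff hd0]; exact hnd
    have hn0 : (n : F) ≠ 0 := by
      intro h0; rw [h0, zero_div] at hf'; exact hf0 hf'
    have hnP : n ∈ P.asIdeal := by
      rw [← P.valuation_lt_one_iff_mem (K := F)]
      have hdv : P.valuation F ((d : fsS K x) : F) = 1 := by
        have := (P.valuation_eq_one_iff_notMem (K := F) (r := (d : fsS K x))).2 d.2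
        exact this
      have : P.valuation F (n : F) = P.valuation F f := by
        have h2 := congrArg (P.valuation F) hnd
        rw [map_mul] at h2
        have h3 : P.valuation F (algebraMap (fsS K x) F d) = 1 := hdv
        rw [h3, mul_one] at h2
        exact h2.symm
      show P.valuation F (algebraMap (fsS K x) F n) < 1
      have h4 : P.valuation F (algebraMap (fsS K x) F n) = P.valuation F f := this
      rw [h4]; exact hf
    have hnpos : 0 < v.ord (n : F) := by
      rcases (fsMem_primeOfPlace_iff v hxv n).1 hnP with h0 | hpos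
      · exact absurd (by rw [h0]; rfl) hn0
      · exact hpos
    rw [hf', ffOrd_div v hn0 hd0, hout d d.2, sub_zero]
    exact hnpos
  apply Place.ext
  rw [fsPlaceOfPrime_toValuationSubring]
  refine SetLike.ext fun f => ?_
  rw [Valuation.mem_valuationSubring_iff]
  constructor
  · exact hle f
  · intro hf
    by_contra hcon
    rw [not_le] at hcon
    have hf0 : f ≠ 0 := by
      intro h0; rw [h0, map_zero] at hcon; exact absurd hcon (by simp)
    have h1 : P.valuation F f⁻¹ < 1 := by
      rw [map_inv₀]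
      exact inv_lt_one_of_one_lt₀ hcon
    have h2 := hlt f⁻¹ (inv_ne_zero hf0) h1
    rw [v.ord_inv] at h2
    have h3 := ffOrd_nonneg_of_mem v hf
    omega

/-- The prime attached to the place of a prime is the prime. -/
theorem fsPrimeOfPlace_placeOfPrime (P : HeightOneSpectrum (fsS K x)) :
    fsPrimeOfPlace (fsPlaceOfPrime P) (fsOrd_x_placeOfPrime_nonneg P) = P := by
  apply HeightOneSpectrum.ext
  ext s
  rw [fsMem_primeOfPlace_iff, fsOrd_placeOfPrime, ← P.valuation_lt_one_iff_mem (K := F)]
  constructor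
  · rintro (rfl | hs)
    · simp
    · have hne : P.valuation F (algebraMap (fsS K x) F s) ≠ 0 := by
        intro h0
        have : P.valuation F (s : F) = 0 := h0
        rw [this] at hs
        simp at hs
      have h1 : log (P.valuation F (algebraMap (fsS K x) F s)) < 0 := by
        have : log (P.valuation F (s : F)) < 0 := by omega
        exact this
      have := (WithZero.log_lt_log hne one_ne_zero).1 (by simpa using h1)
      exact this
  · intro hs
    by_cases h0 : s = 0
    · exact Or.inl h0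
    right
    have hsF : (s : F) ≠ 0 := by simpa using h0
    have hne : P.valuation F (s : F) ≠ 0 := (Valuation.ne_zero_iff _).2 hsF
    have := (WithZero.log_lt_log hne one_ne_zero).2 hs
    simp only [log_one] at this
    omega

end Dict

section Sum


variable [h : FFSep K x]

/-- `x` as an element of `K[x]`. -/
def fsxA (K : Type*) {F : Type*} [Field K] [Field F] [Algebra K F] (x : F) : fsA K x :=
  ⟨x, Algebra.self_mem_adjoin_singleton K x⟩

/-- `x` as an element of `S`. -/
def fsxS (K : Type*) {F : Type*} [Field K] [Field F] [Algebra K F] (x : F) : fsS K x :=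
  ⟨x, fsx_mem_S⟩

/-- The ideal `(x)` of `K[x]`. -/
def fsp (K : Type*) {F : Type*} [Field K] [Field F] [Algebra K F] (x : F) : Ideal (fsA K x) :=
  Ideal.span {fsxA K x}

lemma fsxA_irreducible : Irreducible (fsxA K x) := by
  have h1 := (MulEquiv.irreducible_iff
    (Polynomial.algEquivOfTranscendental K x h.trans).toMulEquiv).2
      (Polynomial.irreducible_X (R := K))
  have h2 : (Polynomial.algEquivOfTranscendental K x h.trans).toMulEquiv X = fsxA K x :=
    Polynomial.algEquivOfTranscendental_apply_X K x h.trans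
  rwa [h2] at h1

instance fsp_isMaximal : (fsp K x).IsMaximal :=
  PrincipalIdealRing.isMaximal_of_irreducible fsxA_irreducible

omit h in
lemma fsx_ne_zero (K : Type*) {F : Type*} [Field K] [Field F] [Algebra K F] {x : F}
    [h : FFSep K x] : x ≠ 0 := fun h0 => h.trans (h0 ▸ isAlgebraic_zero)

lemma fsp_ne_bot : fsp K x ≠ ⊥ := by
  rw [fsp, Ne, Ideal.span_singleton_eq_bot]
  intro h0
  exact fsx_ne_zero K (x := x) (congrArg Subtype.val h0)

omit h in
lemma fsAlgebraMap_xA : algebraMap (fsA K x) (fsS K x) (fsxA K x) = fsxS K x := rfl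

/-- A prime of `S` lies over `(x)` iff it contains `x`. -/
lemma fsLiesOver_iff (P : Ideal (fsS K x)) [P.IsPrime] :
    P.LiesOver (fsp K x) ↔ fsxS K x ∈ P := by
  constructor
  · intro hP
    have h1 : fsxA K x ∈ fsp K x := Ideal.subset_span rfl
    rw [hP.over] at h1
    exact h1
  · intro hx
    refine ⟨?_⟩
    refine (Ideal.IsMaximal.eq_of_le fsp_isMaximal ?_ ?_)
    · exact Ideal.IsPrime.ne_top (Ideal.comap_isPrime _ _)
    · rw [fsp, Ideal.span_le, Set.singleton_subset_iff]
      exact hx

/-- Membership in `primesOverFinset (x)`. -/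
lemma fsMem_primesOver_iff (P : Ideal (fsS K x)) :
    P ∈ IsDedekindDomain.primesOverFinset (fsp K x) (fsS K x) ↔ P.IsPrime ∧ fsxS K x ∈ P := by
  rw [IsDedekindDomain.mem_primesOverFinset_iff (fsp_ne_bot (K := K) (x := x)) (fsS K x)]
  constructor
  · rintro ⟨h1, h2⟩
    exact ⟨h1, (fsLiesOver_iff P).1 h2⟩
  · rintro ⟨h1, h2⟩
    exact ⟨h1, (fsLiesOver_iff P).2 h2⟩

/-- The height-one prime attached to a member of `primesOverFinset`. -/
def fsHOS (P : Ideal (fsS K x)) (hP : P ∈ IsDedekindDomain.primesOverFinset (fsp K x) (fsS K x)) :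
    HeightOneSpectrum (fsS K x) where
  asIdeal := P
  isPrime := ((fsMem_primesOver_iff P).1 hP).1
  ne_bot := by
    have h2 : fsxS K x ∈ P := ((fsMem_primesOver_iff P).1 hP).2
    intro hbot
    rw [hbot, Ideal.mem_bot] at h2
    exact fsx_ne_zero K (x := x) (congrArg Subtype.val h2)

lemma fsx_mem_HOS (P : Ideal (fsS K x)) (hP : P ∈ IsDedekindDomain.primesOverFinset (fsp K x) (fsS K x)) :
    fsxS K x ∈ (fsHOS P hP).asIdeal :=
  ((fsMem_primesOver_iff P).1 hP).2

open Classical in
/-- The finite set of zeros of `x`. -/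
def fsZeros (K : Type*) {F : Type*} [Field K] [Field F] [Algebra K F] (x : F) [FFSep K x] :
    Finset (Place K F) :=
  (IsDedekindDomain.primesOverFinset (fsp K x) (fsS K x)).attach.image (fun P => fsPlaceOfPrime (fsHOS P.1 P.2))

/-- positivity of the order in terms of the valuation -/
lemma fsOrd_pos_iff_val_lt_one (P : HeightOneSpectrum (fsS K x)) (s : fsS K x) (hs : s ≠ 0) :
    0 < (fsPlaceOfPrime P).ord (s : F) ↔ s ∈ P.asIdeal := by
  rw [fsOrd_placeOfPrime, ← P.valuation_lt_one_iff_mem (K := F)]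
  have hsF : (s : F) ≠ 0 := by simpa using hs
  have hne : P.valuation F (s : F) ≠ 0 := (Valuation.ne_zero_iff _).2 hsF
  have := (WithZero.log_lt_log hne one_ne_zero)
  simp only [log_one] at this
  constructor
  · intro h1
    exact this.1 (by omega)
  · intro h1
    have := this.2 h1
    omega

theorem fsMem_zeros_iff (v : Place K F) : v ∈ fsZeros K x ↔ 0 < v.ord x := by
  classical
  rw [fsZeros, Finset.mem_image]
  constructor
  · rintro ⟨⟨P, hP⟩, -, rfl⟩
    have hx0 : fsxS K x ≠ 0 := fun h0 => fsx_ne_zero K (x := x) (congrArg Subtype.val h0)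
    exact (fsOrd_pos_iff_val_lt_one (fsHOS P hP) (fsxS K x) hx0).2 (fsx_mem_HOS P hP)
  · intro hv
    have hmem : fsxS K x ∈ (fsPrimeOfPlace v hv.le).asIdeal :=
      (fsMem_primeOfPlace_iff v hv.le _).2 (Or.inr hv)
    have hP : (fsPrimeOfPlace v hv.le).asIdeal ∈
        IsDedekindDomain.primesOverFinset (fsp K x) (fsS K x) :=
      (fsMem_primesOver_iff _).2 ⟨(fsPrimeOfPlace v hv.le).isPrime, hmem⟩
    refine ⟨⟨_, hP⟩, Finset.mem_attach _ _, ?_⟩
    have : fsHOS _ hP = fsPrimeOfPlace v hv.le := HeightOneSpectrum.ext rfl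
    rw [this]
    exact fsPlaceOfPrime_primeOfPlace v hv.le

/-- The ramification index is the order of `x`. -/
lemma fsRamificationIdx_eq (P : HeightOneSpectrum (fsS K x)) (hxP : fsxS K x ∈ P.asIdeal) :
    ((Ideal.ramificationIdx' (fsp K x) P.asIdeal : ℕ) : ℤ) = (fsPlaceOfPrime P).ord x := by
  have hx0 : fsxS K x ≠ 0 := fun h0 => fsx_ne_zero K (x := x) (congrArg Subtype.val h0)
  have hxF : P.valuation F x ≠ 0 := (Valuation.ne_zero_iff _).2 (fsx_ne_zero K (x := x))
  have hval : P.valuation F x = P.intValuation (fsxS K x) :=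
    P.valuation_of_algebraMap (K := F) (fsxS K x)
  have hpos : 0 < (fsPlaceOfPrime P).ord x := (fsOrd_pos_iff_val_lt_one P (fsxS K x) hx0).2 hxP
  have hmap : Ideal.map (algebraMap (fsA K x) (fsS K x)) (fsp K x) = Ideal.span {fsxS K x} := by
    rw [fsp, Ideal.map_span, Set.image_singleton, fsAlgebraMap_xA]
  -- n ≤ ord x ↔ map p ≤ P ^ n
  have key : ∀ n : ℕ, Ideal.map (algebraMap (fsA K x) (fsS K x)) (fsp K x) ≤ P.asIdeal ^ n ↔
      (n : ℤ) ≤ (fsPlaceOfPrime P).ord x := by
    intro n
    rw [hmap, Ideal.span_le, Set.singleton_subset_iff, SetLike.mem_coe,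
      ← P.intValuation_le_pow_iff_mem, ← hval, fsOrd_placeOfPrime]
    rw [← WithZero.log_le_log hxF exp_ne_zero, log_exp]
    omega
  obtain ⟨k, hk⟩ : ∃ k : ℕ, (k : ℤ) = (fsPlaceOfPrime P).ord x :=
    ⟨((fsPlaceOfPrime P).ord x).toNat, Int.toNat_of_nonneg hpos.le⟩
  rw [← hk]
  congr 1
  apply Ideal.ramificationIdx'_spec
  · rw [key]; omega
  · rw [key]; push_cast; omega

set_option synthInstance.maxHeartbeats 400000 in
set_option maxHeartbeats 1000000 in
/-- The inertia degree is one. -/
lemma fsInertiaDeg_eq_one [IsAlgClosed K] (P : HeightOneSpectrum (fsS K x))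
    (hxP : fsxS K x ∈ P.asIdeal) :
    Ideal.inertiaDeg' (fsp K x) P.asIdeal = 1 := by
  have hlo : P.asIdeal.LiesOver (fsp K x) := (fsLiesOver_iff _).2 hxP
  rw [Ideal.inertiaDeg'_algebraMap]
  have hsurj : Function.Surjective
      (algebraMap (fsA K x ⧸ fsp K x) (fsS K x ⧸ P.asIdeal)) := by
    intro w
    obtain ⟨s, rfl⟩ := Ideal.Quotient.mk_surjective w
    -- the residue class of s at the place of P is a constant
    have hxv : 0 ≤ (fsPlaceOfPrime P).ord x := fsOrd_x_placeOfPrime_nonneg P
    obtain ⟨b, hb⟩ := ffResidue_surjective (fsPlaceOfPrime P) h.trans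
      (ffRes (fsPlaceOfPrime P) (fsIncl (fsPlaceOfPrime P) hxv s))
    -- s - b ∈ P
    have hsb : s - ⟨algebraMap K F b, fsConst_mem_S b⟩ ∈ P.asIdeal := by
      have h1 : fsIncl (fsPlaceOfPrime P) hxv s -
          algebraMap K (fsPlaceOfPrime P).toValuationSubring b
          ∈ maximalIdeal (fsPlaceOfPrime P).toValuationSubring := by
        rw [← ffRes_eq_zero_iff, ffRes, map_sub, sub_eq_zero]
        exact hb.symm
      have h2 : fsIncl (fsPlaceOfPrime P) hxv (s - ⟨algebraMap K F b, fsConst_mem_S b⟩)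
          = fsIncl (fsPlaceOfPrime P) hxv s -
            algebraMap K (fsPlaceOfPrime P).toValuationSubring b := by
        rw [map_sub]; rfl
      have h3 : s - ⟨algebraMap K F b, fsConst_mem_S b⟩
          ∈ (fsPrimeOfPlace (fsPlaceOfPrime P) hxv).asIdeal := by
        show _ ∈ Ideal.comap (fsIncl (fsPlaceOfPrime P) hxv) _
        rw [Ideal.mem_comap, h2]; exact h1
      have h4 : fsPrimeOfPlace (fsPlaceOfPrime P) hxv = P := fsPrimeOfPlace_placeOfPrime P
      rwa [h4] at h3
    refine ⟨Ideal.Quotient.mk _ (⟨algebraMap K F b, Subalgebra.algebraMap_mem _ b⟩ : fsA K x), ?_⟩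
    symm
    rw [← sub_eq_zero]
    have : (Ideal.Quotient.mk P.asIdeal) s -
        (algebraMap (fsA K x ⧸ fsp K x) (fsS K x ⧸ P.asIdeal))
        ((Ideal.Quotient.mk (fsp K x)) ⟨(algebraMap K F) b, Subalgebra.algebraMap_mem _ b⟩)
        = Ideal.Quotient.mk P.asIdeal (s - ⟨algebraMap K F b, fsConst_mem_S b⟩) := by
      rw [map_sub]; rfl
    rw [this, Ideal.Quotient.eq_zero_iff_mem]
    exact hsb
  have hinj : Function.Injective
      (algebraMap (fsA K x ⧸ fsp K x) (fsS K x ⧸ P.asIdeal)) := by
    let _ : Field (fsA K x ⧸ fsp K x) := Ideal.Quotient.field (fsp K x)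
    have : Nontrivial (fsS K x ⧸ P.asIdeal) :=
      Ideal.Quotient.nontrivial_iff.2 P.isPrime.ne_top
    exact (algebraMap (fsA K x ⧸ fsp K x) (fsS K x ⧸ P.asIdeal)).injective
  have : Nontrivial (fsA K x ⧸ fsp K x) :=
    Ideal.Quotient.nontrivial_iff.2 (fsp_isMaximal (K := K) (x := x)).ne_top
  rw [← (LinearEquiv.ofBijective
    (Algebra.linearMap (fsA K x ⧸ fsp K x) (fsS K x ⧸ P.asIdeal)) ⟨hinj, hsurj⟩).finrank_eq,
    Module.finrank_self]

/-- **Fundamental equality**: the zeros of `x`, counted with multiplicity, are `[F : K(x)]`. -/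
theorem fsSum_ord_zeros [IsAlgClosed K] :
    ∑ v ∈ fsZeros K x, v.ord x = (Module.finrank K⟮x⟯ F : ℤ) := by
  classical
  have hsum := Ideal.sum_ramification_inertia (R := fsA K x) (fsS K x) K⟮x⟯ F
    (p := fsp K x) (fsp_ne_bot (K := K) (x := x))
  have hinj : ∀ P ∈ (IsDedekindDomain.primesOverFinset (fsp K x) (fsS K x)).attach,
      ∀ Q ∈ (IsDedekindDomain.primesOverFinset (fsp K x) (fsS K x)).attach,
      fsPlaceOfPrime (fsHOS P.1 P.2) = fsPlaceOfPrime (fsHOS Q.1 Q.2) → P = Q := by
    intro P _ Q _ hPQ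
    have h1 := fsPrimeOfPlace_placeOfPrime (fsHOS P.1 P.2)
    have h2 := fsPrimeOfPlace_placeOfPrime (fsHOS Q.1 Q.2)
    have h3 : fsHOS P.1 P.2 = fsHOS Q.1 Q.2 := by
      rw [← h1, ← h2]
      congr 1
    exact Subtype.ext (congrArg HeightOneSpectrum.asIdeal h3)
  calc ∑ v ∈ fsZeros K x, v.ord x
      = ∑ P ∈ (IsDedekindDomain.primesOverFinset (fsp K x) (fsS K x)).attach,
          (fsPlaceOfPrime (fsHOS P.1 P.2)).ord x := Finset.sum_image hinj
    _ = ∑ P ∈ (IsDedekindDomain.primesOverFinset (fsp K x) (fsS K x)).attach,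
          ((Ideal.ramificationIdx' (fsp K x) P.1 * Ideal.inertiaDeg' (fsp K x) P.1 : ℕ) : ℤ) := by
        refine Finset.sum_congr rfl fun P _ => ?_
        have hxP := fsx_mem_HOS P.1 P.2
        have h1 := fsRamificationIdx_eq (fsHOS P.1 P.2) hxP
        have h2 := fsInertiaDeg_eq_one (fsHOS P.1 P.2) hxP
        have h3 : (fsHOS P.1 P.2).asIdeal = P.1 := rfl
        rw [h3] at h1 h2
        rw [h2, mul_one, h1]
    _ = ((∑ P ∈ IsDedekindDomain.primesOverFinset (fsp K x) (fsS K x),
          Ideal.ramificationIdx' (fsp K x) P * Ideal.inertiaDeg' (fsp K x) P : ℕ) : ℤ) := by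
        rw [Nat.cast_sum]
        exact Finset.sum_attach _
          (fun P => ((Ideal.ramificationIdx' (fsp K x) P * Ideal.inertiaDeg' (fsp K x) P : ℕ) : ℤ))
    _ = (Module.finrank K⟮x⟯ F : ℤ) := by rw [hsum]

end Sum

section Transfer

omit [Algebra K F] in
lemma fsTranscendental_of_adjoin_eq [Algebra K F] {x y : F} (hx : Transcendental K x)
    (hxy : K⟮y⟯ = K⟮x⟯) : Transcendental K y := by
  intro hy
  apply hx
  have hx' : x ∈ K⟮y⟯ := hxy ▸ IntermediateField.mem_adjoin_simple_self K x
  have halg : Algebra.IsAlgebraic K K⟮y⟯ :=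
    IntermediateField.isAlgebraic_adjoin_simple hy.isIntegral
  have h1 := halg.isAlgebraic (⟨x, hx'⟩ : K⟮y⟯)
  have h2 : IsAlgebraic K (algebraMap K⟮y⟯ F ⟨x, hx'⟩) :=
    (isAlgebraic_algebraMap_iff (algebraMap K⟮y⟯ F).injective).2 h1
  exact h2

/-- Transfer of the data along an equality `K(y) = K(x)`. -/
theorem FFSep.of_adjoin_eq {x y : F} [h : FFSep K x] (hxy : K⟮y⟯ = K⟮x⟯) : FFSep K y where
  trans := fsTranscendental_of_adjoin_eq h.trans hxy
  fin := by rw [hxy]; exact h.fin
  sep := by rw [hxy]; exact h.sep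

lemma fsFinrank_of_adjoin_eq {x y : F} (hxy : K⟮y⟯ = K⟮x⟯) :
    Module.finrank K⟮y⟯ F = Module.finrank K⟮x⟯ F := by
  rw [hxy]

lemma fsAdjoin_sub_const (x : F) (c : K) : K⟮x - algebraMap K F c⟯ = K⟮x⟯ := by
  apply le_antisymm
  · rw [IntermediateField.adjoin_simple_le_iff]
    exact sub_mem (IntermediateField.mem_adjoin_simple_self K x)
      (IntermediateField.algebraMap_mem _ c)
  · rw [IntermediateField.adjoin_simple_le_iff]
    have h1 : (x - algebraMap K F c) + algebraMap K F c ∈ K⟮x - algebraMap K F c⟯ :=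
      add_mem (IntermediateField.mem_adjoin_simple_self K _)
        (IntermediateField.algebraMap_mem _ c)
    simpa using h1

lemma fsAdjoin_inv (x : F) : K⟮x⁻¹⟯ = K⟮x⟯ := by
  apply le_antisymm
  · rw [IntermediateField.adjoin_simple_le_iff]
    exact inv_mem (IntermediateField.mem_adjoin_simple_self K x)
  · rw [IntermediateField.adjoin_simple_le_iff]
    have h1 : (x⁻¹)⁻¹ ∈ K⟮x⁻¹⟯ := inv_mem (IntermediateField.mem_adjoin_simple_self K _)
    simpa using h1

variable [IsAlgClosed K] {x : F} [h : FFSep K x]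

/-- Zeros of `x - c`: finitely many, and their multiplicities add up to `[F : K(x)]`. -/
theorem fsExists_zeros (c : K) :
    ∃ s : Finset (Place K F), (∀ v, v ∈ s ↔ 0 < v.ord (x - algebraMap K F c)) ∧
      ∑ v ∈ s, v.ord (x - algebraMap K F c) = (Module.finrank K⟮x⟯ F : ℤ) := by
  have : FFSep K (x - algebraMap K F c) := FFSep.of_adjoin_eq (fsAdjoin_sub_const x c)
  refine ⟨fsZeros K (x - algebraMap K F c), fun v => fsMem_zeros_iff v, ?_⟩
  rw [fsSum_ord_zeros, fsFinrank_of_adjoin_eq (fsAdjoin_sub_const x c)]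

/-- Poles of `x`: finitely many, and their multiplicities add up to `[F : K(x)]`. -/
theorem fsExists_poles :
    ∃ s : Finset (Place K F), (∀ v, v ∈ s ↔ v.ord x < 0) ∧
      ∑ v ∈ s, v.ord x = -(Module.finrank K⟮x⟯ F : ℤ) := by
  have : FFSep K x⁻¹ := FFSep.of_adjoin_eq (fsAdjoin_inv x)
  refine ⟨fsZeros K x⁻¹, fun v => ?_, ?_⟩
  · rw [fsMem_zeros_iff, v.ord_inv]; omega
  · have := fsSum_ord_zeros (K := K) (x := x⁻¹)
    rw [fsFinrank_of_adjoin_eq (fsAdjoin_inv x)] at this
    rw [← this, ← Finset.sum_neg_distrib]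
    refine Finset.sum_congr rfl fun v _ => ?_
    rw [v.ord_inv, neg_neg]

end Transfer

end Fermat.Agent.FFlib

end
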