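/-
Generic function-field block in any characteristic (helper12): the characteristic-zero data
`FFData K x` of `S24lib` give `FFSep K x`.
-/
import Mathlib
import Fermat.Agent.FFlib.FSPrimes
import Fermat.Agent.S24lib.FFPrimes

set_option autoImplicit false

namespace Fermat.Agent.FFlib

open Fermat.Agent.S24lib IntermediateField

variable {K F : Type*} [Field K] [Field F] [Algebra K F]

/-- In characteristic zero every transcendental `x` with `F / K(x)` finite is separating. -/
theorem FFSep.of_ffData {x : F} [h : FFData K x] : FFSep K x :=
  ⟨h.trans, h.fin, FFData.instSep⟩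

/-- Characteristic zero: `FFSep` from the three hypotheses. -/
theorem FFSep.of_charZero [CharZero K] {x : F} (hx : Transcendental K x)
    [hfin : FiniteDimensional K⟮x⟯ F] : FFSep K x :=
  haveI : FFData K x := ⟨hx, hfin, inferInstance⟩
  FFSep.of_ffData

end Fermat.Agent.FFlib
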