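/-
Generic function-field block in any characteristic (helper12), part 2:
`Ω[F/K] = F · dx`, `dx ≠ 0`, and `dg ≠ 0 ⇒ g` is separating (`FFSep.of_D_ne_zero`).
-/
import Mathlib
import Fermat.Agent.FFlib.FSPrimes
import Fermat.Agent.S24lib.FFTrans

set_option autoImplicit false

noncomputable section

namespace Fermat.Agent.FFlib

open Fermat.Agent.S24lib
open AlgebraicCurve IntermediateField Polynomial KaehlerDifferential
open scoped IntermediateField.algebraAdjoinAdjoin TensorProduct

variable {K F : Type*} [Field K] [Field F] [Algebra K F]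

/-- `D a ∈ F · D t` for `a ∈ K(t)`. -/
lemma fsD_mem_span_of_mem_adjoin (t : F) {a : F} (ha : a ∈ K⟮t⟯) :
    D K F a ∈ Submodule.span F {D K F t} := by
  induction ha using IntermediateField.adjoin_induction with
  | mem x hx =>
    rw [Set.mem_singleton_iff] at hx
    subst hx
    exact Submodule.subset_span rfl
  | algebraMap c =>
    rw [Derivation.map_algebraMap]
    exact Submodule.zero_mem _
  | add x y _ _ hx hy =>
    rw [map_add]
    exact Submodule.add_mem _ hx hy
  | inv x _ hx =>
    rw [Derivation.leibniz_inv]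
    exact Submodule.smul_mem _ _ hx
  | mul x y _ _ hx hy =>
    rw [Derivation.leibniz]
    exact Submodule.add_mem _ (Submodule.smul_mem _ _ hy) (Submodule.smul_mem _ _ hx)

/-- `Ω[F/K] = F · dt` if `F` is separable algebraic over `K(t)`. -/
theorem fsSpan_D_eq_top_of_isSeparable (t : F) [Algebra.IsSeparable K⟮t⟯ F] :
    Submodule.span F {D K F t} = ⊤ := by
  have hunr : Algebra.FormallyUnramified K⟮t⟯ F := Algebra.FormallyUnramified.of_isSeparable _ _
  have hsub : Subsingleton Ω[F⁄K⟮t⟯] := inferInstance
  have hrange : LinearMap.range (mapBaseChange K K⟮t⟯ F) = ⊤ := by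
    rw [range_mapBaseChange, LinearMap.ker_eq_top]
    exact Subsingleton.elim _ _
  rw [eq_top_iff, ← hrange]
  rintro _ ⟨z, rfl⟩
  induction z using TensorProduct.induction_on with
  | zero => rw [map_zero]; exact Submodule.zero_mem _
  | add z w hz hw => rw [map_add]; exact Submodule.add_mem _ hz hw
  | tmul b y =>
    rw [mapBaseChange_tmul]
    refine Submodule.smul_mem _ _ ?_
    have hy : y ∈ Submodule.span K⟮t⟯ (Set.range (D K K⟮t⟯)) := by
      rw [span_range_derivation]; exact Submodule.mem_top
    induction hy using Submodule.span_induction with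
    | mem y hy =>
      obtain ⟨a, rfl⟩ := hy
      rw [map_D]
      exact fsD_mem_span_of_mem_adjoin t a.2
    | zero => rw [map_zero]; exact Submodule.zero_mem _
    | add y z _ _ hy hz => rw [map_add]; exact Submodule.add_mem _ hy hz
    | smul c y _ hy =>
      rw [map_smul, algebra_compatible_smul F c]
      exact Submodule.smul_mem _ _ hy

section

variable {x : F} [h : FFSep K x]

include h in
/-- `Ω[F/K] = F · dx`. -/
theorem fsSpan_D_eq_top : Submodule.span F {D K F x} = ⊤ :=
  fsSpan_D_eq_top_of_isSeparable x

/-- The derivation `d/dx : K[x] → F`. -/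
def fsDerivA (hx : Transcendental K x) : Derivation K (fsA K x) F :=
  Derivation.mk'
    { toFun := fun a => aeval x (derivative ((Polynomial.algEquivOfTranscendental K x hx).symm a))
      map_add' := fun a b => by rw [map_add, map_add, map_add]
      map_smul' := fun c a => by
        rw [map_smul, derivative_smul, map_smul, RingHom.id_apply] }
    (fun a b => by
      have hcoe : ∀ a : fsA K x,
          aeval x ((Polynomial.algEquivOfTranscendental K x hx).symm a) = (a : F) := by
        intro a
        obtain ⟨p, rfl⟩ := (Polynomial.algEquivOfTranscendental K x hx).surjective a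
        rw [AlgEquiv.symm_apply_apply, algEquivOfTranscendental_apply,
          Polynomial.aeval_subalgebra_coe]
      change aeval x (derivative ((Polynomial.algEquivOfTranscendental K x hx).symm (a * b)))
        = a • aeval x (derivative ((Polynomial.algEquivOfTranscendental K x hx).symm b))
          + b • aeval x (derivative ((Polynomial.algEquivOfTranscendental K x hx).symm a))
      rw [map_mul, derivative_mul, map_add, map_mul, map_mul, hcoe, hcoe, Subalgebra.smul_def,
        Subalgebra.smul_def, smul_eq_mul, smul_eq_mul]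
      ring)

omit h in
lemma fsDerivA_x (hx : Transcendental K x) :
    fsDerivA hx ⟨x, Algebra.self_mem_adjoin_singleton K x⟩ = 1 := by
  change aeval x (derivative ((Polynomial.algEquivOfTranscendental K x hx).symm
    ⟨x, Algebra.self_mem_adjoin_singleton K x⟩)) = (1 : F)
  rw [algEquivOfTranscendental_symm_gen, derivative_X, map_one]

include h in
/-- `dx ≠ 0` in `Ω[F/K]`. -/
theorem fsD_ne_zero : D K F x ≠ 0 := by
  have hloc : Algebra.FormallyEtale (fsA K x) K⟮x⟯ :=
    Algebra.FormallyEtale.of_isLocalization (nonZeroDivisors (fsA K x))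
  have hsep : Algebra.FormallyEtale K⟮x⟯ F := Algebra.FormallyEtale.of_isSeparable _ _
  have het : Algebra.FormallyEtale (fsA K x) F := Algebra.FormallyEtale.comp (fsA K x) K⟮x⟯ F
  let xA : fsA K x := ⟨x, Algebra.self_mem_adjoin_singleton K x⟩
  let φ : Ω[fsA K x⁄K] →ₗ[fsA K x] F := (fsDerivA h.trans).liftKaehlerDifferential
  let Φ : F ⊗[fsA K x] Ω[fsA K x⁄K] →ₗ[F] F := LinearMap.liftBaseChange F φ
  intro h0
  have h1 := tensorKaehlerEquivOfFormallyEtale_symm_D_algebraMap K (fsA K x) F xA
  have h2 : algebraMap (fsA K x) F xA = x := rfl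
  rw [h2, h0, map_zero] at h1
  have h3 := congrArg Φ h1
  rw [map_zero, LinearMap.liftBaseChange_tmul, one_smul,
    Derivation.liftKaehlerDifferential_comp_D, fsDerivA_x] at h3
  exact zero_ne_one h3

end

end Fermat.Agent.FFlib

namespace Fermat.Agent.FFlib

open Fermat.Agent.S24lib
open AlgebraicCurve IntermediateField Polynomial KaehlerDifferential

variable {K F : Type*} [Field K] [Field F] [Algebra K F]

/-- If `dg ≠ 0` then `g` is a separating element. -/
theorem FFSep.of_D_ne_zero [IsAlgClosed K] {x g : F} [h : FFSep K x] (hg : D K F g ≠ 0) :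
    FFSep K g := by
  have ht : Transcendental K g :=
    ffTranscendental_of_not_const (fun c hc => hg (by rw [← hc, Derivation.map_algebraMap]))
  have hfin : FiniteDimensional K⟮g⟯ F := ffFiniteDimensional_of_transcendental (x := x) ht
  refine ⟨ht, hfin, ?_⟩
  -- dg = c dx with c ≠ 0
  obtain ⟨c, hc⟩ : ∃ c : F, c • D K F x = D K F g := by
    have : D K F g ∈ Submodule.span F {D K F x} := by
      rw [fsSpan_D_eq_top (K := K) (x := x)]; exact Submodule.mem_top
    exact Submodule.mem_span_singleton.1 this
  have hc0 : c ≠ 0 := by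
    rintro rfl
    exact hg (by rw [← hc, zero_smul])
  have hmapg : KaehlerDifferential.map K K⟮g⟯ F F (D K F g) = 0 := by
    rw [map_D]
    have : algebraMap F F g = algebraMap K⟮g⟯ F ⟨g, mem_adjoin_simple_self K g⟩ := rfl
    rw [this, Derivation.map_algebraMap]
  have hmapx : KaehlerDifferential.map K K⟮g⟯ F F (D K F x) = 0 := by
    rw [← hc, map_smul, smul_eq_zero] at hmapg
    exact hmapg.resolve_left hc0
  have hsub : Subsingleton Ω[F⁄K⟮g⟯] := by
    refine ⟨fun a b => ?_⟩
    have key : ∀ ω : Ω[F⁄K⟮g⟯], ω = 0 := by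
      intro ω
      obtain ⟨η, rfl⟩ := KaehlerDifferential.map_surjective K K⟮g⟯ F ω
      have hη : η ∈ Submodule.span F {D K F x} := by
        rw [fsSpan_D_eq_top (K := K) (x := x)]; exact Submodule.mem_top
      obtain ⟨e, rfl⟩ := Submodule.mem_span_singleton.1 hη
      rw [map_smul, hmapx, smul_zero]
    rw [key a, key b]
  have hunr : Algebra.FormallyUnramified K⟮g⟯ F := ⟨hsub⟩
  exact (Algebra.FormallyUnramified.iff_isSeparable K⟮g⟯ F).1 hunr

end Fermat.Agent.FFlib
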