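/-
Generic function-field block in any characteristic (helper12), part 3:
principal divisors have degree zero, functions without poles are constant, a place exists.
Standing hypotheses: `K` algebraically closed, `FFSep K x` (`x` transcendental, `F / K(x)` finite
and separable).
-/
import Mathlib
import Fermat.Agent.FFlib.FSDiff

set_option autoImplicit false

noncomputable section

namespace Fermat.Agent.FFlib

open Fermat.Agent.S24lib
open AlgebraicCurve IntermediateField Polynomial KaehlerDifferential

variable {K F : Type*} [Field K] [Field F] [Algebra K F]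

section

variable [IsAlgClosed K] {x : F} [h : FFSep K x]

include h in
/-- The degree of a divisor is the plain sum of its coefficients (all places have degree one). -/
lemma fsDegree_eq_sum (W : Divisor K F) (s : Finset (Place K F)) (hs : W.support ⊆ s) :
    Divisor.degree W = ∑ v ∈ s, W v := by
  have h1 : Divisor.degree W = W.sum (fun v n => n * (v.deg : ℤ)) := by
    simp [Divisor.degree, Finsupp.liftAddHom_apply]
  rw [h1, Finsupp.sum]
  have h2 : ∀ v ∈ W.support, W v * (v.deg : ℤ) = W v := by
    intro v _
    rw [ffDeg_eq_one v h.trans, Nat.cast_one, mul_one]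
  rw [Finset.sum_congr rfl h2]
  exact Finset.sum_subset hs (fun v _ hv => Finsupp.notMem_support_iff.1 hv)

include h in
/-- The divisor of a separating element exists and has degree zero. -/
lemma fsExists_principal_of_D_ne_zero {g : F} (hg : D K F g ≠ 0) :
    ∃ W : Divisor K F, (∀ v : Place K F, W v = v.ord g) ∧ Divisor.degree W = 0 := by
  classical
  have hsep : FFSep K g := FFSep.of_D_ne_zero (x := x) hg
  obtain ⟨Z, hZ, hZsum⟩ := fsExists_zeros (K := K) (x := g) 0
  obtain ⟨P, hP, hPsum⟩ := fsExists_poles (K := K) (x := g)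
  simp only [map_zero, sub_zero] at hZ hZsum
  refine ⟨Finsupp.onFinset (Z ∪ P) (fun v => v.ord g) ?_, fun v => rfl, ?_⟩
  · intro v hv
    rw [Finset.mem_union, hZ, hP]
    omega
  · have hdisj : Disjoint Z P := by
      rw [Finset.disjoint_left]
      intro v hv1 hv2
      rw [hZ] at hv1
      rw [hP] at hv2
      omega
    rw [fsDegree_eq_sum (x := x) _ (Z ∪ P) (Finsupp.support_onFinset_subset),
      Finset.sum_union hdisj]
    simp only [Finsupp.onFinset_apply]
    rw [hZsum, hPsum]
    ring

include h in
/-- **Principal divisors**: every function has finitely many zeros and poles, and its divisor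
has degree zero. -/
theorem fsExists_principal (f : F) :
    ∃ W : Divisor K F, (∀ v : Place K F, W v = v.ord f) ∧ Divisor.degree W = 0 := by
  rcases eq_or_ne f 0 with rfl | hf0
  · exact ⟨0, fun v => by rw [v.ord_zero]; rfl, map_zero _⟩
  by_cases hdf : D K F f = 0
  · -- `f x` is separating
    have hx0 : x ≠ 0 := fun h0 => h.trans (h0 ▸ isAlgebraic_zero)
    have hdx : D K F x ≠ 0 := fsD_ne_zero (K := K) (x := x)
    have hd : D K F (f * x) ≠ 0 := by
      rw [Derivation.leibniz, hdf, smul_zero, add_zero]
      exact smul_ne_zero hf0 hdx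
    obtain ⟨W₁, hW₁, hdeg₁⟩ := fsExists_principal_of_D_ne_zero (x := x) hd
    obtain ⟨W₂, hW₂, hdeg₂⟩ := fsExists_principal_of_D_ne_zero (x := x) hdx
    refine ⟨W₁ - W₂, fun v => ?_, by rw [map_sub, hdeg₁, hdeg₂, sub_zero]⟩
    rw [Finsupp.sub_apply, hW₁, hW₂, v.ord_mul hf0 hx0]
    ring
  · exact fsExists_principal_of_D_ne_zero (x := x) hdf

include h in
/-- There is a place. -/
theorem fsNonempty_place : Nonempty (Place K F) := by
  classical
  obtain ⟨Z, -, hZsum⟩ := fsExists_zeros (K := K) (x := x) 0
  have hpos : 0 < Module.finrank K⟮x⟯ F := Module.finrank_pos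
  rcases Z.eq_empty_or_nonempty with hZ | ⟨v, -⟩
  · rw [hZ, Finset.sum_empty] at hZsum
    omega
  · exact ⟨v⟩

include h in
/-- A nonzero function without poles has no zeros. -/
lemma fsOrd_eq_zero_of_forall_nonneg {f : F} (hf : ∀ v : Place K F, 0 ≤ v.ord f)
    (v : Place K F) : v.ord f = 0 := by
  classical
  obtain ⟨W, hW, hdeg⟩ := fsExists_principal (K := K) (x := x) f
  rw [fsDegree_eq_sum (x := x) W W.support subset_rfl] at hdeg
  by_contra hne
  have hv : v ∈ W.support := by
    rw [Finsupp.mem_support_iff, hW]
    exact hne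
  have hnn : ∀ u ∈ W.support, 0 ≤ W u := fun u _ => by rw [hW]; exact hf u
  have := (Finset.sum_eq_zero_iff_of_nonneg hnn).1 hdeg v hv
  rw [hW] at this
  exact hne this

include h in
/-- A function without poles is constant. -/
theorem fsConst_of_forall_ord_nonneg (f : F) (hf : ∀ v : Place K F, 0 ≤ v.ord f) :
    f ∈ Set.range (algebraMap K F) := by
  by_contra hc
  have ht : Transcendental K f := ffTranscendental_of_not_const (fun c hcf => hc ⟨c, hcf⟩)
  have halg : Algebra.IsAlgebraic K⟮f⟯ F := by
    have : FiniteDimensional K⟮f⟯ F := ffFiniteDimensional_of_transcendental (x := x) ht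
    exact Algebra.IsAlgebraic.of_finite _ _
  obtain ⟨v⟩ := fsNonempty_place (K := K) (x := x)
  obtain ⟨c, hcv⟩ := ffExists_center v ht (hf v)
  have hne : f - algebraMap K F c ≠ 0 := fun h0 => hc ⟨c, (sub_eq_zero.1 h0).symm⟩
  have hnn : ∀ u : Place K F, 0 ≤ u.ord (f - algebraMap K F c) := by
    intro u
    rw [sub_eq_add_neg]
    refine ffOrd_add_ge u (by rwa [← sub_eq_add_neg]) ?_ (Or.inr ?_)
    · rcases eq_or_ne f 0 with h0 | -
      · exact Or.inl h0
      · exact Or.inr (hf u)
    · rw [ffOrd_neg, ffOrd_algebraMap]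
  have := fsOrd_eq_zero_of_forall_nonneg (x := x) hnn v
  omega

end

end Fermat.Agent.FFlib

end
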