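/-
Generic function-field block in any characteristic (helper12), part 5:
separating elements exist (Mathlib: finitely generated extensions of perfect fields are separably
generated), hence `FFSep K y` follows from finiteness of `F / K(y)` and `dy ≠ 0`.

* `fsExists_ffSep`            : `F / K(y)` finite, `y` transcendental ⇒ `∃ x, FFSep K x`;
* `FFSep.of_finite_of_D_ne_zero` : `F / K(y)` finite and `dy ≠ 0` ⇒ `FFSep K y`;
* `FFSep.of_finite_of_derivation` : the same with any `K`-derivation `δ` with `δ y ≠ 0`.
-/
import Mathlib
import Fermat.Agent.FFlib.FSDiff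

set_option autoImplicit false

noncomputable section

namespace Fermat.Agent.FFlib

open Fermat.Agent.S24lib
open AlgebraicCurve IntermediateField Polynomial KaehlerDifferential Cardinal

universe u v

variable {K : Type u} {F : Type v} [Field K] [Field F] [Algebra K F]

/-- `F / K` is essentially of finite type if `F / K(y)` is finite. -/
lemma fsEssFiniteType {y : F} (hfin : FiniteDimensional K⟮y⟯ F) : Algebra.EssFiniteType K F := by
  obtain ⟨S, hS, hST⟩ := ffExists_finite_adjoin_eq_top (K := K) (x := y)
  rw [← IntermediateField.fg_top_iff]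
  refine ⟨hS.toFinset, ?_⟩
  rw [Set.Finite.coe_toFinset, hST]

/-- Over a perfect field, a function field of one variable has a separating element. -/
theorem fsExists_ffSep [PerfectField K] {y : F} (hy : Transcendental K y)
    (hfin : FiniteDimensional K⟮y⟯ F) : ∃ x : F, FFSep K x := by
  classical
  have hess : Algebra.EssFiniteType K F := fsEssFiniteType hfin
  obtain ⟨s, hs, hsep⟩ := exists_isTranscendenceBasis_and_isSeparable_of_perfectField K F
  have halg : Algebra.IsAlgebraic K⟮y⟯ F := Algebra.IsAlgebraic.of_finite _ _
  have htr : Algebra.trdeg K F ≤ 1 := ffTrdeg_le_one (K := K) (x := y)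
  have hpos : 0 < Algebra.trdeg K F := by
    have : Algebra.Transcendental K F := ⟨⟨y, hy⟩⟩
    exact _root_.trdeg_pos K F
  have hcard : s.card = 1 := by
    have h1 := hs.cardinalMk_eq_trdeg
    rw [Cardinal.mk_coe_finset] at h1
    have h2 : ((s.card : ℕ) : Cardinal) ≤ 1 := h1 ▸ htr
    have h3 : (0 : Cardinal) < ((s.card : ℕ) : Cardinal) := h1 ▸ hpos
    have h2' : s.card ≤ 1 := by exact_mod_cast h2
    have h3' : 0 < s.card := by exact_mod_cast h3
    omega
  obtain ⟨x, hsx'⟩ := Finset.card_eq_one.1 hcard
  have hx : x ∈ s := by rw [hsx']; exact Finset.mem_singleton_self x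
  have hsx : (s : Set F) = {x} := by rw [hsx']; exact Finset.coe_singleton x
  rw [hsx] at hsep
  have hxt : Transcendental K x := by
    have h1 := hs.1
    have h2 := h1.transcendental ⟨x, hx⟩
    simpa using h2
  exact ⟨x, ⟨hxt, ffFiniteDimensional_of_transcendental (x := y) hxt, hsep⟩⟩

/-- If `F / K(y)` is finite and `dy ≠ 0` then `y` is a separating element. -/
theorem FFSep.of_finite_of_D_ne_zero [IsAlgClosed K] {y : F}
    (hfin : FiniteDimensional K⟮y⟯ F) (hD : D K F y ≠ 0) : FFSep K y := by
  have hy : Transcendental K y :=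
    ffTranscendental_of_not_const (fun c hc => hD (by rw [← hc, Derivation.map_algebraMap]))
  obtain ⟨x, hx⟩ := fsExists_ffSep hy hfin
  exact FFSep.of_D_ne_zero (x := x) hD

/-- If `F / K(y)` is finite and `δ y ≠ 0` for some `K`-derivation `δ` of `F` then `y` is a
separating element. -/
theorem FFSep.of_finite_of_derivation [IsAlgClosed K] {M : Type*} [AddCommGroup M] [Module K M]
    [Module F M] [IsScalarTower K F M] (δ : Derivation K F M) {y : F}
    (hfin : FiniteDimensional K⟮y⟯ F) (hδ : δ y ≠ 0) : FFSep K y := by
  refine FFSep.of_finite_of_D_ne_zero hfin (fun h0 => hδ ?_)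
  rw [← Derivation.liftKaehlerDifferential_comp_D δ y, h0, map_zero]

end Fermat.Agent.FFlib
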